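import Fermat.Agent.S55.LevelFields
import Fermat.Agent.S14.Reduction.Cyclo

/-!
# S55 wiring (T1e): the mod `p` cyclotomic character is unramified outside `p`

For a valuation subring `A` of `ℚ̄` over a prime `q ≠ p`, the inertia subgroup of `A` acts
trivially on the `p`-th roots of unity, i.e. `cycloChar p` is trivial on it.
-/

set_option autoImplicit false

open ExtCitation

namespace Fermat.Agent.S55

local notation "GQ" => (AlgebraicClosure ℚ ≃ₐ[ℚ] AlgebraicClosure ℚ)

section

variable {L : Type*} [Field L] (A : ValuationSubring L)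

/-- A root of unity has valuation one. -/
theorem tl_valuation_eq_one_of_pow_eq_one {ζ : L} {n : ℕ} (hn : n ≠ 0) (hζ : ζ ^ n = 1) :
    A.valuation ζ = 1 := by
  have h : (A.valuation ζ) ^ n = 1 := by rw [← map_pow, hζ, map_one]
  exact (pow_eq_one_iff.1 h).resolve_right hn

/-- If a `p`-th root of unity `ω ≠ 1` is congruent to `1` modulo the maximal ideal of `A`,
then `p` lies in the maximal ideal. -/
theorem tl_valuation_prime_lt_one {p : ℕ} (hp : p.Prime) {ω : L} (hω : ω ^ p = 1) (hω1 : ω ≠ 1)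
    (hlt : A.valuation (ω - 1) < 1) : A.valuation (p : L) < 1 := by
  have hωA : ω ∈ A := by
    rw [← ValuationSubring.valuation_le_one_iff,
      tl_valuation_eq_one_of_pow_eq_one A hp.ne_zero hω]
  -- the geometric sum vanishes
  have hgeom : ∑ i ∈ Finset.range p, ω ^ i = 0 := by
    have h1 : (∑ i ∈ Finset.range p, ω ^ i) * (ω - 1) = 0 := by
      rw [geom_sum_mul, hω, sub_self]
    rcases mul_eq_zero.1 h1 with h | h
    · exact h
    · exact absurd (sub_eq_zero.1 h) hω1
  have hp_eq : (p : L) = ∑ i ∈ Finset.range p, (1 - ω ^ i) := by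
    rw [Finset.sum_sub_distrib, hgeom, sub_zero, Finset.sum_const, Finset.card_range,
      nsmul_eq_mul, mul_one]
  rw [hp_eq]
  refine Valuation.map_sum_lt _ one_ne_zero fun i _ => ?_
  have hfac : 1 - ω ^ i = -((∑ j ∈ Finset.range i, ω ^ j) * (ω - 1)) := by
    rw [geom_sum_mul]; ring
  rw [hfac, Valuation.map_neg, map_mul]
  have hsum : A.valuation (∑ j ∈ Finset.range i, ω ^ j) ≤ 1 := by
    rw [ValuationSubring.valuation_le_one_iff]
    exact sum_mem fun j _ => pow_mem hωA j
  calc A.valuation (∑ j ∈ Finset.range i, ω ^ j) * A.valuation (ω - 1)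
      ≤ 1 * A.valuation (ω - 1) := mul_le_mul_left hsum _
    _ = A.valuation (ω - 1) := one_mul _
    _ < 1 := hlt

/-- Two distinct primes cannot both lie in the maximal ideal. -/
theorem tl_not_two_primes {p q : ℕ} (hp : p.Prime) (hq : q.Prime) (hpq : q ≠ p)
    (h1 : A.valuation (p : L) < 1) (h2 : A.valuation (q : L) < 1) : False := by
  have hcop : Nat.Coprime p q := (Nat.coprime_primes hp hq).2 (Ne.symm hpq)
  have hbez : (p : ℤ) * Nat.gcdA p q + (q : ℤ) * Nat.gcdB p q = 1 := by
    have := Nat.gcd_eq_gcd_ab p q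
    rw [hcop.gcd_eq_one] at this
    exact_mod_cast this.symm
  have hL : (p : L) * ((Nat.gcdA p q : ℤ) : L) + (q : L) * ((Nat.gcdB p q : ℤ) : L) = 1 := by
    exact_mod_cast congrArg (Int.cast : ℤ → L) hbez
  have hint : ∀ n : ℤ, A.valuation (n : L) ≤ 1 := fun n => by
    rw [ValuationSubring.valuation_le_one_iff]; exact intCast_mem A n
  have hlt : A.valuation ((p : L) * ((Nat.gcdA p q : ℤ) : L) +
      (q : L) * ((Nat.gcdB p q : ℤ) : L)) < 1 := by
    refine Valuation.map_add_lt _ ?_ ?_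
    · rw [map_mul]
      calc A.valuation (p : L) * A.valuation ((Nat.gcdA p q : ℤ) : L)
          ≤ A.valuation (p : L) * 1 := mul_le_mul_right (hint _) _
        _ = A.valuation (p : L) := mul_one _
        _ < 1 := h1
    · rw [map_mul]
      calc A.valuation (q : L) * A.valuation ((Nat.gcdB p q : ℤ) : L)
          ≤ A.valuation (q : L) * 1 := mul_le_mul_right (hint _) _
        _ = A.valuation (q : L) := mul_one _
        _ < 1 := h2
  rw [hL, map_one] at hlt
  exact lt_irrefl _ hlt

end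

/-- **The mod `p` cyclotomic character is unramified at `q ≠ p`.** -/
theorem tl_cycloChar_eq_one_of_mem_inertia (p : ℕ) [Fact p.Prime] {q : ℕ} (hq : q.Prime)
    (hqp : q ≠ p) (A : ValuationSubring (AlgebraicClosure ℚ)) (hA : A.LiesOverPrime q)
    {σ : GQ} (hσ : σ ∈ A.inertiaSubgroupIn ℚ) : cycloChar p σ = 1 := by
  have hp : p.Prime := Fact.out
  have : NeZero p := ⟨hp.ne_zero⟩
  obtain ⟨ζ, hζ⟩ := HasEnoughRootsOfUnity.exists_primitiveRoot (AlgebraicClosure ℚ) p
  have hfix : σ ζ = ζ := by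
    by_contra hne
    obtain ⟨-, htriv⟩ := (tl_mem_inertiaSubgroupIn_iff A σ).1 hσ
    have hvζ : A.valuation ζ = 1 :=
      tl_valuation_eq_one_of_pow_eq_one A hp.ne_zero hζ.pow_eq_one
    have hζA : ζ ∈ A := by rw [← ValuationSubring.valuation_le_one_iff, hvζ]
    have hlt0 : A.valuation (σ ζ - ζ) < 1 :=
      (ValuationSubring.mem_nonunits_iff (A := A)).1 (htriv ζ hζA)
    have hζ0 : ζ ≠ 0 := hζ.ne_zero hp.ne_zero
    -- `ω = σ ζ / ζ` is a nontrivial `p`-th root of unity congruent to one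
    have hω : (σ ζ * ζ⁻¹) ^ p = 1 := by
      rw [mul_pow, ← map_pow, hζ.pow_eq_one, map_one, one_mul, inv_pow, hζ.pow_eq_one, inv_one]
    have hω1 : σ ζ * ζ⁻¹ ≠ 1 := by
      intro h
      apply hne
      have := congrArg (· * ζ) h
      simpa [hζ0] using this
    have hlt : A.valuation (σ ζ * ζ⁻¹ - 1) < 1 := by
      have : σ ζ * ζ⁻¹ - 1 = (σ ζ - ζ) * ζ⁻¹ := by
        rw [sub_mul, mul_inv_cancel₀ hζ0]
      rw [this, map_mul, map_inv₀, hvζ, inv_one, mul_one]
      exact hlt0
    have h1 := tl_valuation_prime_lt_one A hp hω hω1 hlt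
    have h2 : A.valuation ((q : ℕ) : AlgebraicClosure ℚ) < 1 :=
      (ValuationSubring.mem_nonunits_iff (A := A)).1 hA
    exact tl_not_two_primes A hp hq hqp h1 h2
  have hchi : Fermat.Agent.S14.Reduction.chi p σ = 1 :=
    (Fermat.Agent.S14.Reduction.chi_eq_one_iff p σ hζ).2 hfix
  apply Units.ext
  rw [coe_cycloChar]
  exact hchi

end Fermat.Agent.S55
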