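import Fermat.Prelude.Def_GroupCohomology_ContinuousUnramified

/-!
# S55 wiring (T1): level fields

* a membership criterion for `ValuationSubring.inertiaSubgroupIn`,
* conjugation of inertia subgroups,
* the normal closure of a field unramified outside `S` is unramified outside `S`.
-/

set_option autoImplicit false

open scoped Pointwise

namespace Fermat.Agent.S55

section Inertia

variable {K L : Type*} [Field K] [Field L] [Algebra K L] (A : ValuationSubring L)

/-- Membership in the inertia subgroup (as a subgroup of the full automorphism group):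
`σ` stabilises `A` and acts trivially modulo the maximal ideal. -/
theorem tl_mem_inertiaSubgroupIn_iff (σ : L ≃ₐ[K] L) :
    σ ∈ A.inertiaSubgroupIn K ↔ σ • A = A ∧ ∀ x ∈ A, σ x - x ∈ A.nonunits := by
  constructor
  · intro hσ
    unfold ValuationSubring.inertiaSubgroupIn at hσ
    rw [Subgroup.mem_map] at hσ
    obtain ⟨τ, hτ, rfl⟩ := hσ
    refine ⟨τ.2, fun x hx => ?_⟩
    rw [ValuationSubring.inertiaSubgroup, MonoidHom.mem_ker] at hτ
    have h1 : τ • (IsLocalRing.residue A ⟨x, hx⟩) = IsLocalRing.residue A ⟨x, hx⟩ := by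
      have := congrArg (fun f : RingAut (IsLocalRing.ResidueField A) =>
        f (IsLocalRing.residue A ⟨x, hx⟩)) hτ
      exact this
    rw [← IsLocalRing.ResidueField.residue_smul] at h1
    have h2 : τ • (⟨x, hx⟩ : A) - ⟨x, hx⟩ ∈ IsLocalRing.maximalIdeal A := by
      rw [← Ideal.Quotient.eq]; exact h1
    exact ValuationSubring.coe_mem_nonunits_iff.2 h2
  · rintro ⟨hA, htriv⟩
    have hσD : σ ∈ A.decompositionSubgroup K := hA
    refine ⟨⟨σ, hσD⟩, ?_, rfl⟩
    show (⟨σ, hσD⟩ : A.decompositionSubgroup K) ∈ A.inertiaSubgroup K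
    rw [ValuationSubring.inertiaSubgroup, MonoidHom.mem_ker]
    ext x
    show (⟨σ, hσD⟩ : A.decompositionSubgroup K) • x = x
    obtain ⟨a, rfl⟩ := IsLocalRing.residue_surjective x
    rw [← IsLocalRing.ResidueField.residue_smul]
    refine Ideal.Quotient.eq.mpr ?_
    rw [← ValuationSubring.coe_mem_nonunits_iff]
    exact htriv a a.2

theorem tl_map_mem_nonunits_smul (τ : L ≃ₐ[K] L) {z : L} (hz : z ∈ A.nonunits) :
    τ z ∈ (τ • A).nonunits := by
  rw [ValuationSubring.mem_nonunits_iff_or] at hz ⊢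
  rcases hz with rfl | hz
  · left; exact map_zero τ
  · right
    intro h
    apply hz
    rw [← map_inv₀] at h
    have := (ValuationSubring.smul_mem_pointwise_smul_iff (g := τ) (S := A) (x := z⁻¹)).1 h
    exact this

/-- Conjugation of inertia subgroups. -/
theorem tl_inertia_conj (τ σ : L ≃ₐ[K] L) (hσ : σ ∈ A.inertiaSubgroupIn K) :
    τ * σ * τ⁻¹ ∈ (τ • A).inertiaSubgroupIn K := by
  rw [tl_mem_inertiaSubgroupIn_iff] at hσ ⊢
  obtain ⟨hA, htriv⟩ := hσ
  refine ⟨?_, fun x hx => ?_⟩
  · rw [mul_smul, mul_smul, inv_smul_smul, hA]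
  · obtain ⟨y, hy, rfl⟩ := (ValuationSubring.mem_smul_pointwise_iff_exists τ x A).1 hx
    have h1 : (τ * σ * τ⁻¹) (τ • y) - τ • y = τ (σ y - y) := by
      show τ (σ (τ⁻¹ (τ y))) - τ y = τ (σ y - y)
      rw [map_sub]
      congr 2
      exact congrArg σ (show τ⁻¹ (τ y) = y from τ.symm_apply_apply y)
    rw [h1]
    exact tl_map_mem_nonunits_smul A τ (htriv y hy)

end Inertia

section Level

local notation "GQ" => (AlgebraicClosure ℚ ≃ₐ[ℚ] AlgebraicClosure ℚ)

theorem tl_liesOverPrime_smul (τ : GQ) (A : ValuationSubring (AlgebraicClosure ℚ)) (q : ℕ)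
    (h : A.LiesOverPrime q) : (τ • A).LiesOverPrime q := by
  unfold ValuationSubring.LiesOverPrime at h ⊢
  have := tl_map_mem_nonunits_smul (K := ℚ) A τ h
  rwa [map_natCast] at this

/-- The conjugate field `τ(F)` of a field unramified outside `S` is unramified outside `S`. -/
theorem tl_isUnramifiedOutside_map {S : Finset Nat.Primes}
    {F : IntermediateField ℚ (AlgebraicClosure ℚ)} (hF : F.IsUnramifiedOutside S) (τ : GQ) :
    (F.map (τ : AlgebraicClosure ℚ →ₐ[ℚ] AlgebraicClosure ℚ)).IsUnramifiedOutside S := by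
  have := hF.1
  refine ⟨?_, fun q hq A hA σ hσ => ?_⟩
  · exact (IntermediateField.equivMap F (τ : AlgebraicClosure ℚ →ₐ[ℚ] AlgebraicClosure ℚ)).toLinearEquiv.finiteDimensional
  · -- `τ⁻¹ σ τ` is in the inertia group of `τ⁻¹ • A`, hence fixes `F`
    have h1 : τ⁻¹ * σ * (τ⁻¹)⁻¹ ∈ (τ⁻¹ • A).inertiaSubgroupIn ℚ := tl_inertia_conj A τ⁻¹ σ hσ
    have h2 := hF.2 q hq (τ⁻¹ • A) (tl_liesOverPrime_smul τ⁻¹ A q hA) h1
    rw [IntermediateField.mem_fixingSubgroup_iff] at h2 ⊢
    rintro x ⟨y, hy, rfl⟩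
    have h3 := h2 y hy
    rw [inv_inv] at h3
    have h4 : τ⁻¹ (σ (τ y)) = y := h3
    have h5 : σ (τ y) = τ y := by
      have := congrArg τ h4
      rwa [show τ (τ⁻¹ (σ (τ y))) = σ (τ y) from τ.apply_symm_apply _] at this
    exact h5

/-- The normal closure of a field unramified outside `S` is unramified outside `S`. -/
theorem tl_isUnramifiedOutside_normalClosure {S : Finset Nat.Primes}
    {F : IntermediateField ℚ (AlgebraicClosure ℚ)} (hF : F.IsUnramifiedOutside S) :
    (IntermediateField.normalClosure ℚ F (AlgebraicClosure ℚ)).IsUnramifiedOutside S := by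
  have := hF.1
  have : Algebra.IsAlgebraic ℚ (AlgebraicClosure ℚ) := AlgebraicClosure.isAlgebraic ℚ
  have : IsAlgClosure ℚ (AlgebraicClosure ℚ) := ⟨inferInstance, inferInstance⟩
  have : Normal ℚ (AlgebraicClosure ℚ) := IsAlgClosure.normal ℚ (AlgebraicClosure ℚ)
  refine ⟨inferInstance, fun q hq A hA => ?_⟩
  rw [← IntermediateField.le_iff_le]
  have hdef := IntermediateField.normalClosure_def'' (F := ℚ) (L := AlgebraicClosure ℚ) F
  refine (le_of_eq hdef).trans ?_
  rw [iSup_le_iff]
  intro τ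
  rw [IntermediateField.le_iff_le]
  exact (tl_isUnramifiedOutside_map hF τ).2 q hq A hA

end Level

end Fermat.Agent.S55
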