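import Fermat.Agent.S55.LevelFields

/-!
# S55 wiring (T1d): the kernel field of a smooth finite-dimensional representation

For `M : Rep k G_ℚ` finite-dimensional and smooth, `ker ρ` is an open normal subgroup; its fixed
field `L_M` is a finite Galois extension of `ℚ` with `Fix(L_M) = ker ρ`; if inertia at all
`q ∉ S` acts trivially, `L_M` is unramified outside `S`.
-/

set_option autoImplicit false

open CategoryTheory

namespace Fermat.Agent.S55

local notation "GQ" => (AlgebraicClosure ℚ ≃ₐ[ℚ] AlgebraicClosure ℚ)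

/-- Instance-path repair (the default `Algebra ℚ (AlgebraicClosure ℚ)` is the division-ring one). -/
local instance tl_qbarIsAlgebraic : Algebra.IsAlgebraic ℚ (AlgebraicClosure ℚ) :=
  AlgebraicClosure.isAlgebraic ℚ

local instance tl_qbarIsAlgClosure : IsAlgClosure ℚ (AlgebraicClosure ℚ) :=
  ⟨inferInstance, inferInstance⟩

section openNormal

variable (N : Subgroup GQ) (hN : IsOpen (N : Set GQ))

include hN

theorem tl_fixingSubgroup_fixedField_of_isOpen :
    (IntermediateField.fixedField N).fixingSubgroup = N := by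
  have hcl : IsClosed (N : Set GQ) := N.isClosed_of_isOpen hN
  exact InfiniteGalois.fixingSubgroup_fixedField ⟨N, hcl⟩

theorem tl_finiteDimensional_fixedField :
    FiniteDimensional ℚ (IntermediateField.fixedField N) := by
  have h1 : IsOpen ((IntermediateField.fixedField N).fixingSubgroup : Set GQ) := by
    rw [tl_fixingSubgroup_fixedField_of_isOpen N hN]; exact hN
  exact (InfiniteGalois.isOpen_iff_finite _).mp h1

theorem tl_isGalois_fixedField [N.Normal] : IsGalois ℚ (IntermediateField.fixedField N) := by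
  have h1 : ((IntermediateField.fixedField N).fixingSubgroup).Normal := by
    rw [tl_fixingSubgroup_fixedField_of_isOpen N hN]; infer_instance
  exact (InfiniteGalois.normal_iff_isGalois _).mp h1

end openNormal

section Kernel

variable {k : Type} [Field k] (M : Rep k GQ) [FiniteDimensional k M]

/-- A smooth finite-dimensional representation is trivial on `Fix F₀` for one finite `F₀`. -/
theorem tl_exists_finite_level_trivial
    (hsm : ∀ m : M, ∃ F : IntermediateField ℚ (AlgebraicClosure ℚ), FiniteDimensional ℚ F ∧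
      ∀ s ∈ F.fixingSubgroup, M.ρ s m = m) :
    ∃ F₀ : IntermediateField ℚ (AlgebraicClosure ℚ), FiniteDimensional ℚ F₀ ∧
      ∀ s ∈ F₀.fixingSubgroup, M.ρ s = 1 := by
  classical
  let b := Module.finBasis k M
  choose F hFfin hF using hsm
  refine ⟨⨆ i, F (b i), ?_, fun s hs => ?_⟩
  · have : ∀ i, FiniteDimensional ℚ (F (b i)) := fun i => hFfin (b i)
    exact IntermediateField.finiteDimensional_iSup_of_finite
  · apply b.ext
    intro i
    have hle : F (b i) ≤ ⨆ j, F (b j) := le_iSup (fun j => F (b j)) i
    exact hF (b i) s (IntermediateField.fixingSubgroup_antitone hle hs)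

theorem tl_ker_isOpen
    (hsm : ∀ m : M, ∃ F : IntermediateField ℚ (AlgebraicClosure ℚ), FiniteDimensional ℚ F ∧
      ∀ s ∈ F.fixingSubgroup, M.ρ s m = m) :
    IsOpen ((M.ρ : GQ →* (M →ₗ[k] M)).ker : Set GQ) := by
  obtain ⟨F₀, hfin, h⟩ := tl_exists_finite_level_trivial M hsm
  have := hfin
  have hle : F₀.fixingSubgroup ≤ (M.ρ : GQ →* (M →ₗ[k] M)).ker := fun s hs =>
    MonoidHom.mem_ker.2 (h s hs)
  exact Subgroup.isOpen_mono hle (IntermediateField.fixingSubgroup_isOpen F₀)

/-- The kernel field of `M`. -/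
noncomputable def tl_kernelField : IntermediateField ℚ (AlgebraicClosure ℚ) :=
  IntermediateField.fixedField (M.ρ : GQ →* (M →ₗ[k] M)).ker

variable
    (hsm : ∀ m : M, ∃ F : IntermediateField ℚ (AlgebraicClosure ℚ), FiniteDimensional ℚ F ∧
      ∀ s ∈ F.fixingSubgroup, M.ρ s m = m)

include hsm

theorem tl_fixingSubgroup_kernelField :
    (tl_kernelField M).fixingSubgroup = (M.ρ : GQ →* (M →ₗ[k] M)).ker :=
  tl_fixingSubgroup_fixedField_of_isOpen _ (tl_ker_isOpen M hsm)

theorem tl_finiteDimensional_kernelField : FiniteDimensional ℚ (tl_kernelField M) :=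
  tl_finiteDimensional_fixedField _ (tl_ker_isOpen M hsm)

theorem tl_isGalois_kernelField : IsGalois ℚ (tl_kernelField M) :=
  tl_isGalois_fixedField _ (tl_ker_isOpen M hsm)

theorem tl_rho_eq_one_of_mem_fixingSubgroup_kernelField {s : GQ}
    (hs : s ∈ (tl_kernelField M).fixingSubgroup) : M.ρ s = 1 := by
  rw [tl_fixingSubgroup_kernelField M hsm] at hs
  exact MonoidHom.mem_ker.1 hs

/-- If inertia at all `q ∉ S` acts trivially, the kernel field is unramified outside `S`. -/
theorem tl_isUnramifiedOutside_kernelField (S : Finset Nat.Primes)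
    (hMur : ∀ q : Nat.Primes, q ∉ S → ∀ A : ValuationSubring (AlgebraicClosure ℚ),
      A.LiesOverPrime (q : ℕ) → ∀ g ∈ A.inertiaSubgroupIn ℚ, M.ρ g = 1) :
    (tl_kernelField M).IsUnramifiedOutside S := by
  refine ⟨tl_finiteDimensional_kernelField M hsm, fun q hq A hA g hg => ?_⟩
  rw [tl_fixingSubgroup_kernelField M hsm]
  exact MonoidHom.mem_ker.2 (hMur q hq A hA g hg)

end Kernel

end Fermat.Agent.S55
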