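import Mathlib
import Fermat.Prelude.Def_GaloisRep_CompletionBridge

set_option autoImplicit false

open scoped NNReal Pointwise

noncomputable section

namespace Fermat.Agent.S55

local notation "Qbar" => AlgebraicClosure ℚ

variable (q : ℕ) [Fact q.Prime]

/-- The `q`-adic absolute value on `Qbar` induced by `padicEmbedding q`. -/
def li_abv : AbsoluteValue Qbar ℝ where
  toFun x := ‖padicEmbedding q x‖
  map_mul' x y := by rw [map_mul, norm_mul]
  nonneg' x := norm_nonneg _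
  eq_zero' x := by
    rw [norm_eq_zero]
    exact ⟨fun h => (padicEmbedding q).toRingHom.injective (by simpa using h), fun h => by simp [h]⟩
  add_le' x y := by rw [map_add]; exact norm_add_le _ _

theorem li_abv_apply (x : Qbar) : li_abv q x = ‖padicEmbedding q x‖ := rfl

/-- Transport of `li_abv` along an automorphism. -/
def li_abvComp (σ : Qbar ≃ₐ[ℚ] Qbar) : AbsoluteValue Qbar ℝ where
  toFun x := li_abv q (σ x)
  map_mul' x y := by rw [map_mul, map_mul]
  nonneg' x := (li_abv q).nonneg _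
  eq_zero' x := by rw [AbsoluteValue.eq_zero]; exact map_eq_zero_iff σ σ.injective
  add_le' x y := by rw [map_add]; exact (li_abv q).add_le _ _

theorem li_abvComp_apply (σ : Qbar ≃ₐ[ℚ] Qbar) (x : Qbar) :
    li_abvComp q σ x = ‖padicEmbedding q (σ x)‖ := rfl

theorem li_mem_padicPlace_iff_abv {x : Qbar} : x ∈ padicPlace q ↔ li_abv q x ≤ 1 := by
  rw [mem_padicPlace_iff, li_abv_apply, ← NNReal.coe_le_coe]; rfl

theorem li_smul_mem_iff {σ : Qbar ≃ₐ[ℚ] Qbar}
    (hσ : σ ∈ (padicPlace q).decompositionSubgroup ℚ) (x : Qbar) :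
    σ x ∈ padicPlace q ↔ x ∈ padicPlace q := by
  have h : σ • padicPlace q = padicPlace q := hσ
  constructor
  · intro hx
    have : σ x ∈ σ • padicPlace q := by rw [h]; exact hx
    rw [ValuationSubring.mem_pointwise_smul_iff_inv_smul_mem] at this
    simpa using this
  · intro hx
    rw [← h, ValuationSubring.mem_pointwise_smul_iff_inv_smul_mem]
    simpa using hx

theorem li_abv_lt_one_iff {x : Qbar} (hx : x ≠ 0) : li_abv q x < 1 ↔ x⁻¹ ∉ padicPlace q := by
  rw [li_mem_padicPlace_iff_abv, map_inv₀, not_le, one_lt_inv₀ ((li_abv q).pos hx)]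

theorem li_isEquiv {σ : Qbar ≃ₐ[ℚ] Qbar}
    (hσ : σ ∈ (padicPlace q).decompositionSubgroup ℚ) :
    (li_abv q).IsEquiv (li_abvComp q σ) := by
  rw [AbsoluteValue.isEquiv_iff_lt_one_iff]
  intro x
  rcases eq_or_ne x 0 with rfl | hx
  · simp
  have hσx : σ x ≠ 0 := (map_ne_zero_iff σ σ.injective).2 hx
  show li_abv q x < 1 ↔ li_abv q (σ x) < 1
  rw [li_abv_lt_one_iff q hx, li_abv_lt_one_iff q hσx, ← map_inv₀, li_smul_mem_iff q hσ]

theorem li_abv_natCast_q : li_abv q (q : Qbar) = (q : ℝ)⁻¹ := by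
  rw [li_abv_apply, map_natCast]
  have h := PadicAlgCl.valuation_p q
  have h2 : ((Valued.v (q : PadicAlgCl q) : ℝ≥0) : ℝ) = ‖(q : PadicAlgCl q)‖ :=
    PadicAlgCl.valuation_coe q _
  rw [← h2, h]
  simp

theorem li_abvComp_eq {σ : Qbar ≃ₐ[ℚ] Qbar}
    (hσ : σ ∈ (padicPlace q).decompositionSubgroup ℚ) :
    li_abvComp q σ = li_abv q := by
  obtain ⟨c, hc, hvw⟩ := AbsoluteValue.isEquiv_iff_exists_rpow_eq.1 (li_isEquiv q hσ)
  have hq : (li_abv q (q : Qbar)) ^ c = li_abvComp q σ (q : Qbar) := congrFun hvw _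
  have hq2 : li_abvComp q σ (q : Qbar) = li_abv q (q : Qbar) := by
    show li_abv q (σ (q : Qbar)) = _
    rw [map_natCast]
  rw [hq2, li_abv_natCast_q] at hq
  have hq1 : (1 : ℝ) < q := by exact_mod_cast (Fact.out : q.Prime).one_lt
  have hqpos : (0 : ℝ) < (q : ℝ)⁻¹ := inv_pos.2 (by linarith)
  have hqlt : (q : ℝ)⁻¹ < 1 := inv_lt_one_of_one_lt₀ hq1
  have hc1 : c = 1 := by
    have h1 : ((q : ℝ)⁻¹) ^ c = ((q : ℝ)⁻¹) ^ (1 : ℝ) := by rw [hq, Real.rpow_one]
    exact (Real.rpow_right_inj hqpos hqlt.ne).1 h1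
  subst hc1
  ext x
  have := congrFun hvw x
  simpa using this.symm

/-- **Isometry**: elements of the decomposition group of `padicPlace q` preserve the `q`-adic
norm on `Qbar`. -/
theorem li_nnnorm_padicEmbedding_smul {σ : Qbar ≃ₐ[ℚ] Qbar}
    (hσ : σ ∈ (padicPlace q).decompositionSubgroup ℚ) (x : Qbar) :
    ‖padicEmbedding q (σ x)‖₊ = ‖padicEmbedding q x‖₊ := by
  have h := congrArg (fun v : AbsoluteValue Qbar ℝ => v x) (li_abvComp_eq q hσ)
  exact NNReal.coe_injective h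

/-! ### Extension of a decomposition-group element to `ℂ_[q]` -/

local notation "Kq" => WithAbs (li_abv q)
local notation "Cq" => PadicComplex q
local notation "Ωq" => PadicAlgCl q

/-- The embedding `Qbar → ℂ_[q]` on the normed field `WithAbs (li_abv q)`. -/
def li_phi : Kq →+* Cq :=
  (UniformSpace.Completion.coeRingHom (α := Ωq)).comp
    ((padicEmbedding q).toRingHom.comp (WithAbs.equiv (li_abv q)).toRingHom)

theorem li_phi_apply (x : Kq) : li_phi q x = ((padicEmbedding q x.ofAbs : Ωq) : Cq) := rfl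

theorem li_norm_phi (x : Kq) : ‖li_phi q x‖ = ‖x‖ := by
  rw [li_phi_apply, PadicComplex.norm_extends, WithAbs.norm_eq_apply_ofAbs, li_abv_apply]

theorem li_isometry_phi : Isometry (li_phi q) :=
  AddMonoidHomClass.isometry_of_norm _ (li_norm_phi q)

/-- The extension `Φ : completion of (Qbar, q-adic norm) → ℂ_[q]`. -/
def li_Phi : (li_abv q).Completion →+* Cq := (li_isometry_phi q).extensionHom

theorem li_Phi_coe (x : Kq) : li_Phi q (x : (li_abv q).Completion) = li_phi q x :=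
  (li_isometry_phi q).extensionHom_coe x

theorem li_isometry_Phi : Isometry (li_Phi q) :=
  (li_isometry_phi q).completion_extension

variable {q}

/-- An element of the decomposition group as an isometric ring automorphism of
`WithAbs (li_abv q)`. -/
def li_sigmaK (σ : Qbar ≃ₐ[ℚ] Qbar) : Kq ≃+* Kq :=
  WithAbs.congr (li_abv q) (li_abv q) σ.toRingEquiv

theorem li_sigmaK_apply (σ : Qbar ≃ₐ[ℚ] Qbar) (x : Kq) :
    li_sigmaK σ x = WithAbs.toAbs (li_abv q) (σ x.ofAbs) := rfl

theorem li_sigmaK_symm_apply (σ : Qbar ≃ₐ[ℚ] Qbar) (x : Kq) :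
    (li_sigmaK σ).symm x = WithAbs.toAbs (li_abv q) (σ.symm x.ofAbs) := rfl

theorem li_norm_sigmaK {σ : Qbar ≃ₐ[ℚ] Qbar}
    (hσ : σ ∈ (padicPlace q).decompositionSubgroup ℚ) (x : Kq) : ‖li_sigmaK σ x‖ = ‖x‖ := by
  rw [WithAbs.norm_eq_apply_ofAbs, WithAbs.norm_eq_apply_ofAbs, li_sigmaK_apply]
  exact congrArg (fun v : AbsoluteValue Qbar ℝ => v x.ofAbs) (li_abvComp_eq q hσ)

theorem li_isometry_sigmaK {σ : Qbar ≃ₐ[ℚ] Qbar}
    (hσ : σ ∈ (padicPlace q).decompositionSubgroup ℚ) : Isometry (li_sigmaK (q := q) σ) :=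
  AddMonoidHomClass.isometry_of_norm _ (li_norm_sigmaK hσ)

theorem li_isometry_sigmaK_symm {σ : Qbar ≃ₐ[ℚ] Qbar}
    (hσ : σ ∈ (padicPlace q).decompositionSubgroup ℚ) :
    Isometry (li_sigmaK (q := q) σ).symm := by
  refine AddMonoidHomClass.isometry_of_norm _ fun x => ?_
  have h := li_norm_sigmaK hσ ((li_sigmaK (q := q) σ).symm x)
  rw [RingEquiv.apply_symm_apply] at h
  exact h.symm

/-- The extension of `σ` to the completion. -/
def li_sigmaHat {σ : Qbar ≃ₐ[ℚ] Qbar} (hσ : σ ∈ (padicPlace q).decompositionSubgroup ℚ) :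
    (li_abv q).Completion ≃+* (li_abv q).Completion :=
  UniformSpace.Completion.mapRingEquiv (li_sigmaK σ) (li_isometry_sigmaK hσ).continuous
    (li_isometry_sigmaK_symm hσ).continuous

theorem li_sigmaHat_coe {σ : Qbar ≃ₐ[ℚ] Qbar}
    (hσ : σ ∈ (padicPlace q).decompositionSubgroup ℚ) (x : Kq) :
    li_sigmaHat hσ (x : (li_abv q).Completion) = ((li_sigmaK σ x : Kq) : (li_abv q).Completion) := by
  show UniformSpace.Completion.map (li_sigmaK (q := q) σ) (x : (li_abv q).Completion) = _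
  exact UniformSpace.Completion.map_coe (li_isometry_sigmaK hσ).uniformContinuous x

theorem li_isometry_sigmaHat {σ : Qbar ≃ₐ[ℚ] Qbar}
    (hσ : σ ∈ (padicPlace q).decompositionSubgroup ℚ) : Isometry (li_sigmaHat hσ) := by
  have : (li_sigmaHat hσ : (li_abv q).Completion → (li_abv q).Completion) =
      UniformSpace.Completion.map (li_sigmaK (q := q) σ) := rfl
  rw [this]
  exact (li_isometry_sigmaK hσ).completion_map

variable (q)

theorem li_isClosed_range_Phi : IsClosed (Set.range (li_Phi q)) :=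
  (li_isometry_Phi q).isClosedEmbedding.isClosed_range

theorem li_Phi_injective : Function.Injective (li_Phi q) := (li_isometry_Phi q).injective

theorem li_Phi_ratCast (r : ℚ) :
    li_Phi q (((r : Kq) : Kq) : (li_abv q).Completion) = (r : Cq) := by
  rw [li_Phi_coe, map_ratCast]

/-- `ℚ_[q]` lies in the closure `range Φ` of `Qbar` inside `ℂ_[q]`. -/
theorem li_padic_mem_range_Phi (a : ℚ_[q]) :
    algebraMap ℚ_[q] Cq a ∈ Set.range (li_Phi q) := by
  have hcont : Continuous (algebraMap ℚ_[q] Cq) := by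
    have : Isometry (algebraMap ℚ_[q] Cq) :=
      AddMonoidHomClass.isometry_of_norm _ (fun x => PadicComplex.norm_extends' q x)
    exact this.continuous
  have hcl : IsClosed ((algebraMap ℚ_[q] Cq) ⁻¹' Set.range (li_Phi q)) :=
    (li_isClosed_range_Phi q).preimage hcont
  have hsub : Set.range ((↑) : ℚ → ℚ_[q]) ⊆ (algebraMap ℚ_[q] Cq) ⁻¹' Set.range (li_Phi q) := by
    rintro _ ⟨r, rfl⟩
    refine ⟨((r : Kq) : (li_abv q).Completion), ?_⟩
    rw [li_Phi_ratCast, map_ratCast]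
  have := (Padic.denseRange_ratCast q).closure_range
  have h2 : closure (Set.range ((↑) : ℚ → ℚ_[q])) ⊆ _ := hcl.closure_subset_iff.2 hsub
  rw [this] at h2
  exact h2 (Set.mem_univ a)

/-- A preimage under `Φ` of a `q`-adic number. -/
def li_g (a : ℚ_[q]) : (li_abv q).Completion := (li_padic_mem_range_Phi q a).choose

theorem li_Phi_g (a : ℚ_[q]) : li_Phi q (li_g q a) = algebraMap ℚ_[q] Cq a :=
  (li_padic_mem_range_Phi q a).choose_spec

theorem li_isometry_g : Isometry (li_g q) := by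
  refine Isometry.of_dist_eq fun a b => ?_
  rw [← (li_isometry_Phi q).dist_eq, li_Phi_g, li_Phi_g, dist_eq_norm, dist_eq_norm, ← map_sub]
  exact PadicComplex.norm_extends' q _

theorem li_g_ratCast (r : ℚ) : li_g q (r : ℚ_[q]) = ((r : Kq) : (li_abv q).Completion) := by
  apply li_Phi_injective q
  rw [li_Phi_g, li_Phi_ratCast, map_ratCast]

variable {q}

theorem li_sigmaK_ratCast (σ : Qbar ≃ₐ[ℚ] Qbar) (r : ℚ) : li_sigmaK (q := q) σ (r : Kq) = (r : Kq) :=
  map_ratCast (li_sigmaK (q := q) σ) r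

/-- `Φ ∘ σ̂` fixes the `q`-adic numbers. -/
theorem li_Phi_sigmaHat_g {σ : Qbar ≃ₐ[ℚ] Qbar}
    (hσ : σ ∈ (padicPlace q).decompositionSubgroup ℚ) (a : ℚ_[q]) :
    li_Phi q (li_sigmaHat hσ (li_g q a)) = algebraMap ℚ_[q] Cq a := by
  have h1 : Continuous fun a : ℚ_[q] => li_Phi q (li_sigmaHat hσ (li_g q a)) :=
    (li_isometry_Phi q).continuous.comp
      ((li_isometry_sigmaHat hσ).continuous.comp (li_isometry_g q).continuous)
  have h2 : Continuous (algebraMap ℚ_[q] Cq) := by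
    have : Isometry (algebraMap ℚ_[q] Cq) :=
      AddMonoidHomClass.isometry_of_norm _ (fun x => PadicComplex.norm_extends' q x)
    exact this.continuous
  have heq := (Padic.denseRange_ratCast q).equalizer h1 h2 (funext fun r => by
    simp only [Function.comp_apply]
    rw [li_g_ratCast, li_sigmaHat_coe, li_sigmaK_ratCast, li_Phi_ratCast, map_ratCast])
  exact congrFun heq a

theorem li_Phi_sigmaHat_of_eq {σ : Qbar ≃ₐ[ℚ] Qbar}
    (hσ : σ ∈ (padicPlace q).decompositionSubgroup ℚ) (a : ℚ_[q]) (z : (li_abv q).Completion)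
    (hz : li_Phi q z = algebraMap ℚ_[q] Cq a) :
    li_Phi q (li_sigmaHat hσ z) = algebraMap ℚ_[q] Cq a := by
  have : z = li_g q a := li_Phi_injective q (by rw [hz, li_Phi_g])
  rw [this, li_Phi_sigmaHat_g]

variable (q)

/-- An element of `ℂ_[q]` algebraic over `ℚ_[q]` lies in `PadicAlgCl q`. -/
theorem li_mem_range_coe_of_isAlgebraic {y : Cq} (hy : IsAlgebraic ℚ_[q] y) :
    ∃ w : Ωq, (w : Cq) = y := by
  have hint : IsIntegral Ωq y := (hy.tower_top (Ωq)).isIntegral
  have hdeg := IsAlgClosed.degree_eq_one_of_irreducible Ωq (minpoly.irreducible hint)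
  obtain ⟨w, hw⟩ := minpoly.mem_range_of_degree_eq_one Ωq y hdeg
  exact ⟨w, hw⟩

/-- The intermediate field `PadicAlgCl q ∩ closure(Qbar)`. -/
def li_M : IntermediateField ℚ_[q] Ωq :=
  ((li_Phi q).fieldRange.comap (UniformSpace.Completion.coeRingHom (α := Ωq))).toIntermediateField
    (fun a => by
      rw [Subfield.mem_comap, RingHom.mem_fieldRange]
      exact li_padic_mem_range_Phi q a)

theorem li_mem_M_iff {x : Ωq} : x ∈ li_M q ↔ ∃ z, li_Phi q z = (x : Cq) := by
  show x ∈ ((li_Phi q).fieldRange.comap (UniformSpace.Completion.coeRingHom (α := Ωq))) ↔ _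
  rw [Subfield.mem_comap, RingHom.mem_fieldRange]
  rfl

theorem li_padicEmbedding_mem_M (x : Qbar) : padicEmbedding q x ∈ li_M q := by
  rw [li_mem_M_iff]
  exact ⟨((WithAbs.toAbs (li_abv q) x : Kq) : (li_abv q).Completion), by rw [li_Phi_coe]; rfl⟩

/-- The preimage in the completion of an element of `li_M`. -/
def li_pre (x : li_M q) : (li_abv q).Completion := ((li_mem_M_iff q).1 x.2).choose

theorem li_Phi_pre (x : li_M q) : li_Phi q (li_pre q x) = ((x : Ωq) : Cq) :=
  ((li_mem_M_iff q).1 x.2).choose_spec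

theorem li_pre_eq_of {x : li_M q} {z : (li_abv q).Completion}
    (hz : li_Phi q z = ((x : Ωq) : Cq)) : li_pre q x = z :=
  li_Phi_injective q (by rw [li_Phi_pre, hz])

/-- `li_pre` as a ring homomorphism. -/
def li_preHom : li_M q →+* (li_abv q).Completion where
  toFun := li_pre q
  map_one' := li_pre_eq_of q (by
    rw [map_one]; exact (UniformSpace.Completion.coe_one (α := Ωq)).symm)
  map_mul' x y := li_pre_eq_of q (by
    rw [map_mul, li_Phi_pre, li_Phi_pre]; simp [UniformSpace.Completion.coe_mul])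
  map_zero' := li_pre_eq_of q (by simp)
  map_add' x y := li_pre_eq_of q (by
    rw [map_add, li_Phi_pre, li_Phi_pre]; simp [UniformSpace.Completion.coe_add])

theorem li_preHom_apply (x : li_M q) : li_preHom q x = li_pre q x := rfl

theorem li_preHom_algebraMap (a : ℚ_[q]) :
    li_preHom q (algebraMap ℚ_[q] (li_M q) a) = li_g q a :=
  li_pre_eq_of q (by rw [li_Phi_g]; rfl)

theorem li_preHom_padicEmbedding (x : Qbar) :
    li_preHom q ⟨padicEmbedding q x, li_padicEmbedding_mem_M q x⟩ =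
      ((WithAbs.toAbs (li_abv q) x : Kq) : (li_abv q).Completion) :=
  li_pre_eq_of q (by rw [li_Phi_coe]; rfl)

variable {q}

/-- The ring homomorphism `Θ = Φ ∘ σ̂ ∘ Φ⁻¹ : li_M → ℂ_[q]`. -/
def li_Theta {σ : Qbar ≃ₐ[ℚ] Qbar} (hσ : σ ∈ (padicPlace q).decompositionSubgroup ℚ) :
    li_M q →ₐ[ℚ_[q]] Cq where
  toRingHom := (li_Phi q).comp ((li_sigmaHat hσ).toRingHom.comp (li_preHom q))
  commutes' a := by
    show li_Phi q (li_sigmaHat hσ (li_preHom q (algebraMap ℚ_[q] (li_M q) a))) = _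
    rw [li_preHom_algebraMap, li_Phi_sigmaHat_g]

theorem li_Theta_apply {σ : Qbar ≃ₐ[ℚ] Qbar} (hσ : σ ∈ (padicPlace q).decompositionSubgroup ℚ)
    (x : li_M q) : li_Theta hσ x = li_Phi q (li_sigmaHat hσ (li_pre q x)) := rfl

theorem li_Theta_padicEmbedding {σ : Qbar ≃ₐ[ℚ] Qbar}
    (hσ : σ ∈ (padicPlace q).decompositionSubgroup ℚ) (x : Qbar) :
    li_Theta hσ ⟨padicEmbedding q x, li_padicEmbedding_mem_M q x⟩ =
      ((padicEmbedding q (σ x) : Ωq) : Cq) := by
  rw [li_Theta_apply, ← li_preHom_apply, li_preHom_padicEmbedding, li_sigmaHat_coe, li_Phi_coe]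
  rfl

theorem li_exists_Theta_eq {σ : Qbar ≃ₐ[ℚ] Qbar}
    (hσ : σ ∈ (padicPlace q).decompositionSubgroup ℚ) (x : li_M q) :
    ∃ w : li_M q, ((w : Ωq) : Cq) = li_Theta hσ x := by
  have halg : IsAlgebraic ℚ_[q] x := Algebra.IsAlgebraic.isAlgebraic x
  have halg' : IsAlgebraic ℚ_[q] (li_Theta hσ x) := IsAlgebraic.algHom (li_Theta hσ) halg
  obtain ⟨w, hw⟩ := li_mem_range_coe_of_isAlgebraic q halg'
  refine ⟨⟨w, (li_mem_M_iff q).2 ⟨li_sigmaHat hσ (li_pre q x), ?_⟩⟩, hw⟩
  rw [hw, li_Theta_apply]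

theorem li_coe_injective : Function.Injective (fun x : li_M q => ((x : Ωq) : Cq)) := by
  intro x y h
  exact Subtype.ext (UniformSpace.Completion.coe_injective Ωq h)

/-- The underlying function of `τ'`. -/
def li_tauFun {σ : Qbar ≃ₐ[ℚ] Qbar} (hσ : σ ∈ (padicPlace q).decompositionSubgroup ℚ)
    (x : li_M q) : li_M q := (li_exists_Theta_eq hσ x).choose

theorem li_coe_tauFun {σ : Qbar ≃ₐ[ℚ] Qbar} (hσ : σ ∈ (padicPlace q).decompositionSubgroup ℚ)
    (x : li_M q) : (((li_tauFun hσ x : li_M q) : Ωq) : Cq) = li_Theta hσ x :=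
  (li_exists_Theta_eq hσ x).choose_spec

/-- `τ'` as an algebra endomorphism of `li_M`. -/
def li_tauHom {σ : Qbar ≃ₐ[ℚ] Qbar} (hσ : σ ∈ (padicPlace q).decompositionSubgroup ℚ) :
    li_M q →ₐ[ℚ_[q]] li_M q where
  toFun := li_tauFun hσ
  map_one' := li_coe_injective (by
    show (((li_tauFun hσ 1 : li_M q) : Ωq) : Cq) = (((1 : li_M q) : Ωq) : Cq)
    rw [li_coe_tauFun, map_one]; exact (UniformSpace.Completion.coe_one (α := Ωq)).symm)
  map_mul' x y := li_coe_injective (by
    show (((li_tauFun hσ (x * y) : li_M q) : Ωq) : Cq) =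
      (((li_tauFun hσ x * li_tauFun hσ y : li_M q) : Ωq) : Cq)
    rw [li_coe_tauFun, map_mul, MulMemClass.coe_mul, UniformSpace.Completion.coe_mul,
      li_coe_tauFun, li_coe_tauFun])
  map_zero' := li_coe_injective (by
    show (((li_tauFun hσ 0 : li_M q) : Ωq) : Cq) = (((0 : li_M q) : Ωq) : Cq)
    rw [li_coe_tauFun, map_zero]; rfl)
  map_add' x y := li_coe_injective (by
    show (((li_tauFun hσ (x + y) : li_M q) : Ωq) : Cq) =
      (((li_tauFun hσ x + li_tauFun hσ y : li_M q) : Ωq) : Cq)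
    rw [li_coe_tauFun, map_add, AddMemClass.coe_add, UniformSpace.Completion.coe_add,
      li_coe_tauFun, li_coe_tauFun])
  commutes' a := li_coe_injective (by
    show (((li_tauFun hσ (algebraMap ℚ_[q] (li_M q) a) : li_M q) : Ωq) : Cq) =
      (((algebraMap ℚ_[q] (li_M q) a : li_M q) : Ωq) : Cq)
    rw [li_coe_tauFun, AlgHom.commutes]; rfl)

theorem li_coe_tauHom {σ : Qbar ≃ₐ[ℚ] Qbar} (hσ : σ ∈ (padicPlace q).decompositionSubgroup ℚ)
    (x : li_M q) : (((li_tauHom hσ x : li_M q) : Ωq) : Cq) = li_Theta hσ x :=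
  li_coe_tauFun hσ x

/-- `τ'` as an algebra automorphism of `li_M`. -/
def li_tauEquiv {σ : Qbar ≃ₐ[ℚ] Qbar} (hσ : σ ∈ (padicPlace q).decompositionSubgroup ℚ) :
    li_M q ≃ₐ[ℚ_[q]] li_M q :=
  AlgEquiv.ofBijective (li_tauHom hσ) (Algebra.IsAlgebraic.algHom_bijective _)

theorem li_tauEquiv_padicEmbedding {σ : Qbar ≃ₐ[ℚ] Qbar}
    (hσ : σ ∈ (padicPlace q).decompositionSubgroup ℚ) (x : Qbar) :
    ((li_tauEquiv hσ ⟨padicEmbedding q x, li_padicEmbedding_mem_M q x⟩ : li_M q) : Ωq) =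
      padicEmbedding q (σ x) := by
  apply UniformSpace.Completion.coe_injective Ωq
  show (((li_tauHom hσ ⟨padicEmbedding q x, li_padicEmbedding_mem_M q x⟩ : li_M q) : Ωq) : Cq) = _
  rw [li_coe_tauHom, li_Theta_padicEmbedding]

/-- The lift of `σ` to an automorphism of `PadicAlgCl q` over `ℚ_[q]`. -/
def li_tau {σ : Qbar ≃ₐ[ℚ] Qbar} (hσ : σ ∈ (padicPlace q).decompositionSubgroup ℚ) :
    Ωq ≃ₐ[ℚ_[q]] Ωq :=
  (li_tauEquiv hσ).liftNormal Ωq

theorem li_tau_padicEmbedding {σ : Qbar ≃ₐ[ℚ] Qbar}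
    (hσ : σ ∈ (padicPlace q).decompositionSubgroup ℚ) (x : Qbar) :
    li_tau hσ (padicEmbedding q x) = padicEmbedding q (σ x) := by
  have h := (li_tauEquiv hσ).liftNormal_commutes Ωq
    ⟨padicEmbedding q x, li_padicEmbedding_mem_M q x⟩
  rw [← li_tauEquiv_padicEmbedding hσ x]
  exact h

theorem li_localGaloisToGlobal_tau {σ : Qbar ≃ₐ[ℚ] Qbar}
    (hσ : σ ∈ (padicPlace q).decompositionSubgroup ℚ) :
    localGaloisToGlobal q (li_tau hσ) = σ := by
  ext x
  apply (padicEmbedding q).toRingHom.injective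
  show padicEmbedding q (localGaloisToGlobal q (li_tau hσ) x) = padicEmbedding q (σ x)
  rw [padicEmbedding_localGaloisToGlobal, li_tau_padicEmbedding]

variable (q)

/-- **T5**: the image of the local Galois group `Gal(PadicAlgCl q / ℚ_[q])` in `Gal(Qbar/ℚ)` is
exactly the decomposition group of `padicPlace q`. -/
theorem li_range_localGaloisToGlobal :
    (localGaloisToGlobal q).range = (padicPlace q).decompositionSubgroup ℚ := by
  apply le_antisymm
  · rintro _ ⟨τ, rfl⟩
    exact localGaloisToGlobal_mem_decompositionSubgroup q τ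
  · intro σ hσ
    exact ⟨li_tau hσ, li_localGaloisToGlobal_tau hσ⟩

theorem li_mem_decompositionSubgroup_iff {σ : Qbar ≃ₐ[ℚ] Qbar} :
    σ ∈ (padicPlace q).decompositionSubgroup ℚ ↔ ∃ τ, localGaloisToGlobal q τ = σ := by
  rw [← li_range_localGaloisToGlobal q]; rfl

/-- Finite-level form: for a normal intermediate field `L`, the image of the local Galois group in
`Gal(L/ℚ)` is the image of the decomposition group of `padicPlace q`. -/
theorem li_range_restrictNormalHom (L : IntermediateField ℚ Qbar) [Normal ℚ L] :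
    ((AlgEquiv.restrictNormalHom (F := ℚ) (K₁ := Qbar) L).comp (localGaloisToGlobal q)).range =
      ((padicPlace q).decompositionSubgroup ℚ).map
        (AlgEquiv.restrictNormalHom (F := ℚ) (K₁ := Qbar) L) := by
  rw [MonoidHom.range_comp, li_range_localGaloisToGlobal]

/-- Elements of the decomposition group are isometries for the `q`-adic norm (real-valued form). -/
theorem li_norm_padicEmbedding_smul {σ : Qbar ≃ₐ[ℚ] Qbar}
    (hσ : σ ∈ (padicPlace q).decompositionSubgroup ℚ) (x : Qbar) :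
    ‖padicEmbedding q (σ x)‖ = ‖padicEmbedding q x‖ :=
  congrArg NNReal.toReal (li_nnnorm_padicEmbedding_smul q hσ x)

end Fermat.Agent.S55
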