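import Fermat.Agent.S55.KernelField
import Fermat.Agent.S55.CycloUnram

/-!
# S55 wiring (T1e): the twisted dual `M^*(1)` inherits the hypotheses of S55

If `M` is finite-dimensional, smooth and unramified outside `S ∋ p`, then so is
`M.dualTwist (cycloChar p)`.
-/

set_option autoImplicit false

open CategoryTheory ExtCitation

namespace Fermat.Agent.S55

local notation "GQ" => (AlgebraicClosure ℚ ≃ₐ[ℚ] AlgebraicClosure ℚ)

variable {p : ℕ} [Fact p.Prime] (M : Rep.{0} (ZMod p) GQ)

instance tl_finiteDimensional_dualTwist [FiniteDimensional (ZMod p) M] (χ : GQ →* (ZMod p)ˣ) :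
    FiniteDimensional (ZMod p) (M.dualTwist χ) :=
  inferInstanceAs (FiniteDimensional (ZMod p) (Module.Dual (ZMod p) M))

/-- `cycloChar p` is trivial on `Fix(F)` for a finite `F` (smoothness of the character). -/
theorem tl_cycloChar_smooth (p : ℕ) [Fact p.Prime] :
    ∃ F : IntermediateField ℚ (AlgebraicClosure ℚ), FiniteDimensional ℚ F ∧
      ∀ s ∈ F.fixingSubgroup, cycloChar p s = 1 := by
  have hp : p.Prime := Fact.out
  have : NeZero p := ⟨hp.ne_zero⟩
  obtain ⟨ζ, hζ⟩ := HasEnoughRootsOfUnity.exists_primitiveRoot (AlgebraicClosure ℚ) p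
  have : Algebra.IsAlgebraic ℚ (AlgebraicClosure ℚ) := AlgebraicClosure.isAlgebraic ℚ
  refine ⟨IntermediateField.adjoin ℚ {ζ}, ?_, fun s hs => ?_⟩
  · exact IntermediateField.adjoin.finiteDimensional (Algebra.IsIntegral.isIntegral ζ)
  · have hfix : s ζ = ζ :=
      (IntermediateField.mem_fixingSubgroup_iff _ _).1 hs ζ
        (IntermediateField.mem_adjoin_simple_self ℚ ζ)
    have hchi : Fermat.Agent.S14.Reduction.chi p s = 1 :=
      (Fermat.Agent.S14.Reduction.chi_eq_one_iff p s hζ).2 hfix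
    apply Units.ext
    rw [coe_cycloChar]
    exact hchi

/-- The twisted dual of a smooth finite-dimensional representation is smooth. -/
theorem tl_dualTwist_smooth [FiniteDimensional (ZMod p) M]
    (hsm : ∀ m : M, ∃ F : IntermediateField ℚ (AlgebraicClosure ℚ), FiniteDimensional ℚ F ∧
      ∀ s ∈ F.fixingSubgroup, M.ρ s m = m) :
    ∀ f : (M.dualTwist (cycloChar p)), ∃ F : IntermediateField ℚ (AlgebraicClosure ℚ),
      FiniteDimensional ℚ F ∧
      ∀ s ∈ F.fixingSubgroup, (M.dualTwist (cycloChar p)).ρ s f = f := by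
  intro f
  obtain ⟨F₀, hF₀, h₀⟩ := tl_exists_finite_level_trivial M hsm
  obtain ⟨F₁, hF₁, h₁⟩ := tl_cycloChar_smooth p
  refine ⟨F₀ ⊔ F₁, IntermediateField.finiteDimensional_sup F₀ F₁, fun s hs => ?_⟩
  have hs₀ : s ∈ F₀.fixingSubgroup := IntermediateField.fixingSubgroup_antitone le_sup_left hs
  have hs₁ : s ∈ F₁.fixingSubgroup := IntermediateField.fixingSubgroup_antitone le_sup_right hs
  rw [Rep.dualTwist_ρ_apply, h₁ s hs₁, h₀ s⁻¹ (inv_mem hs₀), Units.val_one, one_smul]
  exact LinearMap.ext fun x => rfl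

/-- The twisted dual of a representation unramified outside `S ∋ p` is unramified outside `S`. -/
theorem tl_dualTwist_unramified (S : Finset Nat.Primes) (hpS : pPrime p ∈ S)
    (hMur : ∀ q : Nat.Primes, q ∉ S → ∀ A : ValuationSubring (AlgebraicClosure ℚ),
      A.LiesOverPrime (q : ℕ) → ∀ g ∈ A.inertiaSubgroupIn ℚ, M.ρ g = 1) :
    ∀ q : Nat.Primes, q ∉ S → ∀ A : ValuationSubring (AlgebraicClosure ℚ),
      A.LiesOverPrime (q : ℕ) → ∀ g ∈ A.inertiaSubgroupIn ℚ,
        (M.dualTwist (cycloChar p)).ρ g = 1 := by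
  intro q hq A hA g hg
  have hqp : (q : ℕ) ≠ p := by
    intro h
    apply hq
    have : q = pPrime p := Subtype.ext h
    rwa [this]
  have hχ : cycloChar p g = 1 := tl_cycloChar_eq_one_of_mem_inertia p q.2 hqp A hA hg
  have hρ : M.ρ g⁻¹ = 1 := hMur q hq A hA g⁻¹ (inv_mem hg)
  refine LinearMap.ext fun f => ?_
  rw [Rep.dualTwist_ρ_apply, hχ, hρ, Units.val_one, one_smul]
  exact LinearMap.ext fun x => rfl

end Fermat.Agent.S55
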