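import Fermat.Agent.S55.KernelField

/-!
# S55 wiring (T1b,c): the family of level subgroups `Fix F`

Facts about the subgroups `Fix F ≤ Gal(ℚ̄/ℚ)` for `F/ℚ` finite (unramified outside `S`):
finite index, conjugation, directedness, normal refinements, and `Gal(L/ℚ) = G/Fix L`.
-/

set_option autoImplicit false

namespace Fermat.Agent.S55

local notation "GQ" => (AlgebraicClosure ℚ ≃ₐ[ℚ] AlgebraicClosure ℚ)

local instance tl_qbarIsAlgebraic' : Algebra.IsAlgebraic ℚ (AlgebraicClosure ℚ) :=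
  AlgebraicClosure.isAlgebraic ℚ

local instance tl_qbarIsAlgClosure' : IsAlgClosure ℚ (AlgebraicClosure ℚ) :=
  ⟨inferInstance, inferInstance⟩

variable (F : IntermediateField ℚ (AlgebraicClosure ℚ))

/-- `Fix F` has finite index for `F/ℚ` finite. -/
theorem tl_finiteIndex_fixingSubgroup [FiniteDimensional ℚ F] : F.fixingSubgroup.FiniteIndex := by
  refine ⟨?_⟩
  have h := IntermediateField.finrank_eq_fixingSubgroup_index (F := ℚ)
    (E' := AlgebraicClosure ℚ) F
  have hpos : 0 < Module.finrank ℚ F := Module.finrank_pos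
  intro h0
  rw [h] at hpos
  exact absurd h0 hpos.ne'

/-- `Fix (τ F) = τ (Fix F) τ⁻¹`, in membership form. -/
theorem tl_mem_fixingSubgroup_map_iff (τ σ : GQ) :
    σ ∈ (F.map (τ : AlgebraicClosure ℚ →ₐ[ℚ] AlgebraicClosure ℚ)).fixingSubgroup ↔
      τ⁻¹ * σ * τ ∈ F.fixingSubgroup := by
  rw [IntermediateField.mem_fixingSubgroup_iff, IntermediateField.mem_fixingSubgroup_iff]
  constructor
  · intro h y hy
    have h1 : σ (τ y) = τ y := h (τ y) ⟨y, hy, rfl⟩
    show τ⁻¹ (σ (τ y)) = y
    rw [h1]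
    exact τ.symm_apply_apply y
  · rintro h x ⟨y, hy, rfl⟩
    have h1 : τ⁻¹ (σ (τ y)) = y := h y hy
    have := congrArg τ h1
    rwa [show τ (τ⁻¹ (σ (τ y))) = σ (τ y) from τ.apply_symm_apply _] at this

/-- Conjugation-stability of the family `{Fix F}`: `Fix (τ F) ≤ τ (Fix F) τ⁻¹`, i.e. every
element of `Fix (τ F)` is a conjugate `τ s τ⁻¹` with `s ∈ Fix F`. -/
theorem tl_exists_conj_of_mem_fixingSubgroup_map (τ σ : GQ)
    (h : σ ∈ (F.map (τ : AlgebraicClosure ℚ →ₐ[ℚ] AlgebraicClosure ℚ)).fixingSubgroup) :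
    ∃ s ∈ F.fixingSubgroup, σ = τ * s * τ⁻¹ :=
  ⟨τ⁻¹ * σ * τ, (tl_mem_fixingSubgroup_map_iff F τ σ).1 h, by group⟩

section Quotient

variable (L : IntermediateField ℚ (AlgebraicClosure ℚ)) [Normal ℚ L]

theorem tl_coe_restrictNormalHom (σ : GQ) (x : L) :
    ((AlgEquiv.restrictNormalHom L σ x : L) : AlgebraicClosure ℚ) = σ (x : AlgebraicClosure ℚ) :=
  AlgEquiv.restrictNormal_commutes σ L x

theorem tl_ker_restrictNormalHom :
    (AlgEquiv.restrictNormalHom (F := ℚ) (K₁ := AlgebraicClosure ℚ) L).ker = L.fixingSubgroup := by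
  ext σ
  rw [MonoidHom.mem_ker, IntermediateField.mem_fixingSubgroup_iff]
  constructor
  · intro h x hx
    have := tl_coe_restrictNormalHom L σ ⟨x, hx⟩
    rw [h] at this
    exact this.symm
  · intro h
    refine AlgEquiv.ext fun x => Subtype.ext ?_
    rw [tl_coe_restrictNormalHom]
    exact h x x.2

theorem tl_normal_fixingSubgroup : L.fixingSubgroup.Normal := by
  rw [← tl_ker_restrictNormalHom]
  infer_instance

theorem tl_restrictNormalHom_surjective :
    Function.Surjective (AlgEquiv.restrictNormalHom (F := ℚ) (K₁ := AlgebraicClosure ℚ) L) :=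
  AlgEquiv.restrictNormalHom_surjective (AlgebraicClosure ℚ)

theorem tl_restrictNormalHom_eq_iff (σ τ : GQ) :
    AlgEquiv.restrictNormalHom L σ = AlgEquiv.restrictNormalHom L τ ↔
      σ⁻¹ * τ ∈ L.fixingSubgroup := by
  rw [← tl_ker_restrictNormalHom, MonoidHom.mem_ker, map_mul, map_inv, inv_mul_eq_one]

end Quotient

/-- Every field unramified outside `S` lies in a finite Galois one unramified outside `S`. -/
theorem tl_exists_galois_level {S : Finset Nat.Primes} (hF : F.IsUnramifiedOutside S) :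
    ∃ L : IntermediateField ℚ (AlgebraicClosure ℚ), F ≤ L ∧ L.IsUnramifiedOutside S ∧
      IsGalois ℚ L ∧ L.fixingSubgroup.Normal ∧ L.fixingSubgroup ≤ F.fixingSubgroup := by
  have := hF.1
  have hnQ : Normal ℚ (AlgebraicClosure ℚ) := IsAlgClosure.normal ℚ (AlgebraicClosure ℚ)
  have hnorm : Normal ℚ (IntermediateField.normalClosure ℚ F (AlgebraicClosure ℚ)) :=
    normalClosure.normal ℚ F (AlgebraicClosure ℚ)
  have hle : F ≤ IntermediateField.normalClosure ℚ F (AlgebraicClosure ℚ) :=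
    IntermediateField.le_normalClosure F
  refine ⟨IntermediateField.normalClosure ℚ F (AlgebraicClosure ℚ), hle,
    tl_isUnramifiedOutside_normalClosure hF, ⟨⟩, ?_, IntermediateField.fixingSubgroup_antitone hle⟩
  exact tl_normal_fixingSubgroup _


end Fermat.Agent.S55
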