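import Fermat.Agent.S55.FiniteLocalVanish

/-!
# S55 wiring (T4): the archimedean place contributes nothing for odd `p`

The archimedean local group is `zpowers complexConjugation`, of order dividing 2.  For `p` odd
and `ZMod p`-coefficients its `H¹` and levelled `H²` vanish, so the `Sum.inl ()` components of
`locTotal` and `locTotal₂S` are zero.
-/

set_option autoImplicit false

open CategoryTheory groupCohomology ExtCitation

namespace Fermat.Agent.S55

local notation "GQ" => (AlgebraicClosure ℚ ≃ₐ[ℚ] AlgebraicClosure ℚ)

instance tl_finite_archimedeanDecomposition : Finite ↥archimedeanDecomposition := by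
  have h : IsOfFinOrder complexConjugation :=
    isOfFinOrder_iff_pow_eq_one.2 ⟨2, by norm_num, complexConjugation_sq⟩
  have : Finite ↥(Subgroup.zpowers complexConjugation) := by
    apply Nat.finite_of_card_ne_zero
    rw [Nat.card_zpowers]
    exact h.orderOf_pos.ne'
  exact this

theorem tl_card_archimedeanDecomposition_dvd : Nat.card ↥archimedeanDecomposition ∣ 2 := by
  have : Nat.card ↥(Subgroup.zpowers complexConjugation) = orderOf complexConjugation :=
    Nat.card_zpowers _
  show Nat.card ↥(Subgroup.zpowers complexConjugation) ∣ 2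
  rw [this]
  exact orderOf_dvd_of_pow_eq_one complexConjugation_sq

/-- For `p` odd, the order of the archimedean decomposition group is invertible in `ZMod p`. -/
theorem tl_exists_inv_card_archimedean {p : ℕ} [Fact p.Prime] (hp2 : p ≠ 2) :
    ∃ u : ZMod p, u * (Nat.card ↥archimedeanDecomposition : ZMod p) = 1 := by
  have hp : p.Prime := Fact.out
  have hcop : Nat.Coprime (Nat.card ↥archimedeanDecomposition) p := by
    have h2 : Nat.Coprime 2 p := by
      rw [Nat.coprime_comm, Nat.coprime_primes hp Nat.prime_two]
      exact hp2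
    exact Nat.Coprime.coprime_dvd_left tl_card_archimedeanDecomposition_dvd h2
  have hu : IsUnit ((Nat.card ↥archimedeanDecomposition : ℕ) : ZMod p) :=
    (ZMod.isUnit_iff_coprime _ _).2 hcop
  obtain ⟨v, hv⟩ := hu
  exact ⟨(v⁻¹ : (ZMod p)ˣ), by rw [← hv, Units.inv_mul]⟩

theorem tl_archimedeanLoc_injective : Function.Injective archimedeanLoc :=
  Subgroup.subtype_injective _

/-- The archimedean component of the `H²`-localisation vanishes. -/
theorem tl_locRes₂S_archimedean {p : ℕ} [Fact p.Prime] (hp2 : p ≠ 2) (S : Finset Nat.Primes)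
    (M : Rep (ZMod p) GQ) (x : continuousH2S S M) :
    locRes₂S S M archimedeanLoc x = 0 := by
  obtain ⟨u, hu⟩ := tl_exists_inv_card_archimedean (p := p) hp2
  have := tl_continuousH2_subsingleton archimedeanLoc tl_archimedeanLoc_injective
    (Rep.res archimedeanLoc M) u hu
  exact Subsingleton.elim _ _

/-- The archimedean component of the `H¹`-localisation vanishes. -/
theorem tl_locRes_archimedean {p : ℕ} [Fact p.Prime] (hp2 : p ≠ 2)
    (A : Rep (ZMod p) GQ) (x : H1 (Rep.res archimedeanLoc A)) : x = 0 := by
  obtain ⟨u, hu⟩ := tl_exists_inv_card_archimedean (p := p) hp2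
  have := tl_H1_subsingleton (Rep.res archimedeanLoc A) u hu
  exact Subsingleton.elim _ _

/-- `sha₂` only sees the finite places: membership criterion. -/
theorem tl_mem_sha₂_iff {p : ℕ} [Fact p.Prime] (hp2 : p ≠ 2) (S : Finset Nat.Primes)
    (M : Rep (ZMod p) GQ) (x : continuousH2S S M) :
    x ∈ sha₂ S M ↔ ∀ q : ↥S, locRes₂S S M (primeLocalToGlobal q.1) x = 0 := by
  rw [sha₂, LinearMap.mem_ker]
  constructor
  · intro h q
    exact congrFun h (Sum.inr q)
  · intro h
    funext v
    rcases v with v | q
    · exact tl_locRes₂S_archimedean hp2 S M x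
    · exact h q

/-- `sha₁` only sees the finite places: membership criterion. -/
theorem tl_mem_sha₁_iff {p : ℕ} [Fact p.Prime] (hp2 : p ≠ 2) (S : Finset Nat.Primes)
    (A : Rep (ZMod p) GQ) (x : H1 A) :
    x ∈ sha₁ S A ↔ x ∈ continuousH1S S A ∧
      ∀ q : ↥S, (locRes (extArithLoc S) A (Sum.inr q)).hom x = 0 := by
  rw [sha₁, Submodule.mem_inf, LinearMap.mem_ker]
  refine and_congr_right fun _ => ?_
  constructor
  · intro h q
    exact congrFun h (Sum.inr q)
  · intro h
    funext v
    rcases v with v | q
    · exact tl_locRes_archimedean hp2 A _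
    · exact h q

end Fermat.Agent.S55
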