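import Fermat.Prelude.Def_GroupCohomology_ContinuousUnramified

/-!
# S55 wiring (T4): a finite local group of order invertible in `k` contributes nothing

For a finite group `H` with an injective map `r : H →* Gal(ℚ̄/ℚ)` and `|H|` invertible in `k`:
* every function on `H` is level-constant,
* every 2-cocycle is the coboundary of a (level-constant) 1-cochain, so `continuousH2 r N` is
  a subsingleton,
* `H1 N` is a subsingleton.
Applied to the archimedean decomposition group (order dividing 2) and `k = ZMod p`, `p` odd.
-/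

set_option autoImplicit false

open CategoryTheory groupCohomology

namespace Fermat.Agent.S55

local notation "GQ" => (AlgebraicClosure ℚ ≃ₐ[ℚ] AlgebraicClosure ℚ)

section LevelConstant

variable {H : Type} [Group H] [Finite H] (r : H →* GQ)

/-- For finite `H` and injective `r`, there is a finite extension `F/ℚ` such that the only
element of `H` mapping into `Fix F` is `1`. -/
theorem tl_exists_field_separating (hr : Function.Injective r) :
    ∃ F : IntermediateField ℚ (AlgebraicClosure ℚ), FiniteDimensional ℚ F ∧
      ∀ s : H, r s ∈ F.fixingSubgroup → s = 1 := by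
  classical
  have : Fintype H := Fintype.ofFinite H
  -- for every `h ≠ 1` choose an element moved by `r h`
  have hmove : ∀ h : H, ∃ a : AlgebraicClosure ℚ, h ≠ 1 → r h a ≠ a := by
    intro h
    by_cases hh : h = 1
    · exact ⟨0, fun h' => absurd hh h'⟩
    · have : r h ≠ 1 := fun h1 => hh (hr (by rw [h1, map_one]))
      by_contra hcon
      push Not at hcon
      apply this
      ext a
      obtain ⟨_, ha⟩ := hcon a
      simpa using ha
  choose a ha using hmove
  refine ⟨IntermediateField.adjoin ℚ (Set.range a), ?_, ?_⟩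
  · have : Finite (Set.range a) := Set.finite_range a
    have : Algebra.IsAlgebraic ℚ (AlgebraicClosure ℚ) := AlgebraicClosure.isAlgebraic ℚ
    exact IntermediateField.finiteDimensional_adjoin
      (fun x _ => (Algebra.IsIntegral.isIntegral (R := ℚ) x))
  · intro s hs
    by_contra hne
    apply ha s hne
    have hmem : a s ∈ IntermediateField.adjoin ℚ (Set.range a) :=
      IntermediateField.subset_adjoin ℚ _ ⟨s, rfl⟩
    exact (IntermediateField.mem_fixingSubgroup_iff _ _).1 hs (a s) hmem

theorem tl_isLevelConstant₁_of_finite (hr : Function.Injective r) {X : Type*} (x : H → X) :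
    IsLevelConstant₁ r x := by
  obtain ⟨F, hF, h⟩ := tl_exists_field_separating r hr
  exact ⟨F, hF, fun g s hs => by rw [h s hs, mul_one]⟩

theorem tl_isLevelConstant₂_of_finite (hr : Function.Injective r) {X : Type*} (x : H × H → X) :
    IsLevelConstant₂ r x := by
  obtain ⟨F, hF, h⟩ := tl_exists_field_separating r hr
  exact ⟨F, hF, fun g g' s s' hs hs' => by rw [h s hs, h s' hs', mul_one, mul_one]⟩

end LevelConstant

section Vanish

variable {k : Type} [CommRing k] {H : Type} [Group H] [Finite H]

/-- Averaging: if `|H|` is invertible in `k`, every 2-cocycle is a coboundary. -/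
theorem tl_cocycles₂_eq_d₁₂ (N : Rep.{0} k H) (u : k) (hu : u * (Nat.card H : k) = 1)
    (f : H × H → N) (hf : f ∈ cocycles₂ N) :
    ∃ x : H → N, (d₁₂ N).hom x = f := by
  classical
  have : Fintype H := Fintype.ofFinite H
  rw [mem_cocycles₂_iff] at hf
  refine ⟨fun g => u • ∑ j : H, f (g, j), ?_⟩
  funext ⟨g, h⟩
  rw [d₁₂_hom_apply]
  simp only
  -- sum the cocycle identity over `j`
  have hsum : ∑ j : H, f (g * h, j) + (Nat.card H : k) • f (g, h) =
      N.ρ g (∑ j : H, f (h, j)) + ∑ j : H, f (g, j) := by
    have h1 : ∑ j : H, (f (g * h, j) + f (g, h)) =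
        ∑ j : H, (N.ρ g (f (h, j)) + f (g, h * j)) :=
      Finset.sum_congr rfl fun j _ => hf g h j
    rw [Finset.sum_add_distrib, Finset.sum_add_distrib, Finset.sum_const, Finset.card_univ,
      ← Nat.card_eq_fintype_card, ← map_sum] at h1
    rw [Nat.cast_smul_eq_nsmul, h1]
    congr 1
    exact Fintype.sum_equiv (Equiv.mulLeft h) _ _ fun j => rfl
  have key : (Nat.card H : k) • f (g, h) =
      N.ρ g (∑ j : H, f (h, j)) - ∑ j : H, f (g * h, j) + ∑ j : H, f (g, j) := by
    have h2 : (Nat.card H : k) • f (g, h) =
        N.ρ g (∑ j : H, f (h, j)) + ∑ j : H, f (g, j) - ∑ j : H, f (g * h, j) :=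
      (sub_eq_of_eq_add' hsum.symm).symm
    rw [h2]; abel
  calc N.ρ g (u • ∑ j : H, f (h, j)) - u • ∑ j : H, f (g * h, j) + u • ∑ j : H, f (g, j)
      = u • (N.ρ g (∑ j : H, f (h, j)) - ∑ j : H, f (g * h, j) + ∑ j : H, f (g, j)) := by
        rw [map_smul, smul_add, smul_sub]
    _ = u • ((Nat.card H : k) • f (g, h)) := by rw [key]
    _ = f (g, h) := by rw [smul_smul, hu, one_smul]

/-- For a finite group of order invertible in `k` (with injective `r`), the levelled `H²`
is trivial. -/
theorem tl_continuousH2_subsingleton (r : H →* GQ) (hr : Function.Injective r) (N : Rep.{0} k H)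
    (u : k) (hu : u * (Nat.card H : k) = 1) : Subsingleton (continuousH2 r N) := by
  refine ⟨fun a b => ?_⟩
  have hz : ∀ c : continuousH2 r N, c = 0 := by
    intro c
    obtain ⟨f, rfl⟩ := Submodule.Quotient.mk_surjective _ c
    rw [Submodule.Quotient.mk_eq_zero, Submodule.mem_comap, Submodule.subtype_apply,
      mem_levelCoboundaries₂_iff]
    obtain ⟨x, hx⟩ := tl_cocycles₂_eq_d₁₂ N u hu (f : H × H → N) f.2.1
    exact ⟨x, tl_isLevelConstant₁_of_finite r hr x, hx⟩
  rw [hz a, hz b]

/-- Averaging in degree one: every 1-cocycle is a coboundary. -/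
theorem tl_H1_subsingleton (N : Rep.{0} k H) (u : k) (hu : u * (Nat.card H : k) = 1) :
    Subsingleton (H1 N) := by
  classical
  have : Fintype H := Fintype.ofFinite H
  refine ⟨fun a b => ?_⟩
  have hz : ∀ c : H1 N, c = 0 := by
    intro c
    induction c using H1_induction_on with
    | h f =>
      rw [H1π_eq_zero_iff]
      have hf := (mem_cocycles₁_iff (f : H → N)).1 f.2
      -- `f = d (-(u • ∑ j, f j))`
      refine ⟨-(u • ∑ j : H, f j), ?_⟩
      funext g
      rw [d₀₁_hom_apply]
      have hsum : ∑ j : H, (f : H → N) (g * j) =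
          N.ρ g (∑ j : H, (f : H → N) j) + (Nat.card H : k) • (f : H → N) g := by
        have h1 : ∑ j : H, (f : H → N) (g * j) =
            ∑ j : H, (N.ρ g ((f : H → N) j) + (f : H → N) g) :=
          Finset.sum_congr rfl fun j _ => hf g j
        rw [h1, Finset.sum_add_distrib, Finset.sum_const, Finset.card_univ,
          ← Nat.card_eq_fintype_card, ← map_sum, Nat.cast_smul_eq_nsmul]
      have hperm : ∑ j : H, (f : H → N) (g * j) = ∑ j : H, (f : H → N) j :=
        Fintype.sum_equiv (Equiv.mulLeft g) _ _ fun j => rfl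
      rw [hperm] at hsum
      have key : (Nat.card H : k) • (f : H → N) g =
          ∑ j : H, (f : H → N) j - N.ρ g (∑ j : H, (f : H → N) j) := by
        rw [eq_sub_iff_add_eq, add_comm]; exact hsum.symm
      calc N.ρ g (-(u • ∑ j : H, (f : H → N) j)) - -(u • ∑ j : H, (f : H → N) j)
          = u • (∑ j : H, (f : H → N) j - N.ρ g (∑ j : H, (f : H → N) j)) := by
            rw [map_neg, map_smul, smul_sub]; abel
        _ = u • ((Nat.card H : k) • (f : H → N) g) := by rw [key]
        _ = (f : H → N) g := by rw [smul_smul, hu, one_smul]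
  rw [hz a, hz b]

end Vanish

end Fermat.Agent.S55
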